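import Fermat.Agent.S55.Defs3
import Fermat.Agent.S55.SH.GQLevels
import Fermat.Statements.S55

/-!
# S55 : the concrete system `(G_ℚ, S-levels, (G_{ℚ_q})_{q ∈ S})` and `μ = 𝔽_p(cyclo)`.

The arithmetic modules have to produce `ArithInput (sysS S) (muRep p)` (see `Defs3.lean`), for
`p` odd, `p ∈ S`.
-/

set_option autoImplicit false

open ExtCitation

namespace Fermat.Agent.S55

/-- the absolute Galois group of `ℚ` -/
abbrev GQ : Type := AlgebraicClosure ℚ ≃ₐ[ℚ] AlgebraicClosure ℚ

/-- `Gal(ℚbar/F)` has finite index in `G_ℚ` for a number field `F`. -/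
theorem concrete_finiteIndex (F : IntermediateField ℚ (AlgebraicClosure ℚ))
    (hF : FiniteDimensional ℚ F) : F.fixingSubgroup.FiniteIndex := by
  have : Algebra.IsAlgebraic ℚ (AlgebraicClosure ℚ) := AlgebraicClosure.isAlgebraic ℚ
  have : Normal ℚ (AlgebraicClosure ℚ) := SH.gqLevels_normal_Qb
  have : IsGalois ℚ (AlgebraicClosure ℚ) := ⟨⟩
  have : Finite (GQ ⧸ F.fixingSubgroup) :=
    Subgroup.quotient_finite_of_isOpen _ (IntermediateField.fixingSubgroup_isOpen F)
  exact Subgroup.finiteIndex_of_finite_quotient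

/-- all open subgroups `Gal(ℚbar/F)`, `F` a number field -/
def levAll : Lev GQ where
  mem := {U | ∃ F : IntermediateField ℚ (AlgebraicClosure ℚ), FiniteDimensional ℚ F ∧
    U = F.fixingSubgroup}
  nonempty := SH.finLevels_nonempty
  directed := fun U hU V hV => by
    obtain ⟨W, hW, hle⟩ := SH.levelSys_finLevels.inter U hU V hV
    exact ⟨W, hW, hle.trans inf_le_left, hle.trans inf_le_right⟩
  normal := fun U hU => by
    obtain ⟨W, hW, hn, hle⟩ := SH.levelSys_finLevels.normal U hU
    exact ⟨W, hW, hle, hn⟩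
  finiteIndex := by
    rintro _ ⟨F, hF, rfl⟩
    exact concrete_finiteIndex F hF

/-- the `S`-levels `Gal(ℚbar/F)`, `F` a number field unramified outside `S` -/
def levS (S : Finset Nat.Primes) : Lev GQ where
  mem := {U | ∃ F : IntermediateField ℚ (AlgebraicClosure ℚ), F.IsUnramifiedOutside S ∧
    U = F.fixingSubgroup}
  nonempty := SH.sLevels_nonempty S
  directed := fun U hU V hV => by
    obtain ⟨W, hW, hle⟩ := (SH.levelSys_sLevels S).inter U hU V hV
    exact ⟨W, hW, hle.trans inf_le_left, hle.trans inf_le_right⟩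
  normal := fun U hU => by
    obtain ⟨W, hW, hn, hle⟩ := (SH.levelSys_sLevels S).normal U hU
    exact ⟨W, hW, hle, hn⟩
  finiteIndex := by
    rintro _ ⟨F, hF, rfl⟩
    exact concrete_finiteIndex F hF.1

/-- the concrete system: only the FINITE places `q ∈ S` (the archimedean place of the frozen
statement contributes nothing since `p` is odd). -/
noncomputable def sysS (S : Finset Nat.Primes) : Sys where
  G := GQ
  lev := levS S
  ι := ↥S
  Gv := fun q => primeLocalGaloisGroup q.1
  levv := fun q => levAll.comap (primeLocalToGlobal q.1)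
  r := fun q => primeLocalToGlobal q.1
  compat := by
    rintro q _ ⟨F, hF, rfl⟩
    exact ⟨_, ⟨F, hF.1, rfl⟩, rfl⟩

/-- `μ = 𝔽_p` with the action through the mod `p` cyclotomic character -/
noncomputable def muRep (p : ℕ) [Fact p.Prime] : Representation (ZMod p) GQ (ZMod p) where
  toFun g := ((cycloChar p g : (ZMod p)ˣ) : ZMod p) • LinearMap.id
  map_one' := by ext; simp
  map_mul' g h := by ext; simp [mul_comm]

@[simp] lemma muRep_apply (p : ℕ) [Fact p.Prime] (g : GQ) (x : ZMod p) :
    muRep p g x = ((cycloChar p g : (ZMod p)ˣ) : ZMod p) * x := rfl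

end Fermat.Agent.S55
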