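import Fermat.Agent.S55.Defs2

/-!
# S55 : common definitions, part 3 = THE INTERFACE between the formal machine (module T) and the
arithmetic modules.

`LocGood` : what has to be known about an open normal subgroup `V` of a local group
            (= absolute Galois group of a local field `F ⊇ μ_p`).
`GlobGood`: what has to be known about an `S`-level normal subgroup `U` of the global group
            (= `G_L`, `L ⊇ μ_p` Galois over `ℚ`, unramified outside `S`).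
All cohomology occurring here has TRIVIAL coefficients `k` (`triv`), except in `LocGood.y2`.
-/

set_option autoImplicit false

namespace Fermat.Agent.S55

/-- the trivial representation on `k` -/
abbrev triv (k : Type) [CommRing k] (W : Type) [Group W] : Representation k W k := 1

/-- the multiplication pairing `k × k → k` -/
abbrev mulP (k : Type) [CommRing k] : k →ₗ[k] k →ₗ[k] k := LinearMap.mul k k

/-- What we need to know about an open normal subgroup `V` of a local group `H`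
(`V = G_F`, `F/ℚ_q` finite Galois, `μ_p ⊆ F`). -/
structure LocGood {k : Type} [Field k] {H : Type} [Group H] (𝒱 : Lev H)
    (ρμ : Representation k H k) (V : Subgroup H) : Prop where
  mem : V ∈ 𝒱.mem
  normal : V.Normal
  trivμ : ∀ s ∈ V, ρμ s = 1
  /-- `H¹(V,k) = Hom(V,k)` is finite dimensional -/
  fin1 : FiniteDimensional k ↥(Z1 (𝒱.sub V) (triv k ↥V))
  /-- (Y1) `dim H²(V,k) ≤ 1` -/
  y1 : ∀ f ∈ Z2 (𝒱.sub V) (triv k ↥V), ∀ f' ∈ Z2 (𝒱.sub V) (triv k ↥V),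
    f ∉ B2 (𝒱.sub V) (triv k ↥V) → ∃ c : k, f' - c • f ∈ B2 (𝒱.sub V) (triv k ↥V)
  /-- (Y2) the corestriction `H²(V,μ) = H²(H,Map(H/V,μ)) → H²(H,μ)` is non zero -/
  y2 : ∃ f ∈ Z2 𝒱 (coind (H ⧸ V) ρμ), push (sumL (k := k) (A := k) (H ⧸ V)) f ∉ B2 𝒱 ρμ
  /-- (Y3) the cup product `H¹(V,k) × H¹(V,k) → H²(V,k)` is non degenerate on the left -/
  y3 : ∀ x ∈ Z1 (𝒱.sub V) (triv k ↥V),
    (∀ y ∈ Z1 (𝒱.sub V) (triv k ↥V),
      cup11 (triv k ↥V) (mulP k) x y ∈ B2 (𝒱.sub V) (triv k ↥V)) → x = 0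

/-- the local map at the "place" `(v, γ)` of `U`: `h ↦ γ r_v(h) γ⁻¹`, `r_v⁻¹(U) → U`
(this is the decomposition map attached to the embedding `j_v ∘ γ⁻¹`; same convention as
`SREF.locHom`). -/
def Sys.locU (P : Sys) (U : Subgroup P.G) (hU : U.Normal) (v : P.ι) (γ : P.G) :
    ↥(U.comap (P.r v)) →* ↥U where
  toFun h := ⟨γ * P.r v h * γ⁻¹, hU.conj_mem _ h.2 γ⟩
  map_one' := by ext; simp
  map_mul' a b := by ext; simp [mul_assoc]

/-- `(v,γ)` and `(v',γ')` define the same place of `U`: `v = v'` and `γ' ∈ U γ r_v(G_v)`. -/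
def Sys.SamePlace (P : Sys) (U : Subgroup P.G) (w w' : P.ι × P.G) : Prop :=
  w.1 = w'.1 ∧ ∃ u ∈ U, ∃ h : P.Gv w.1, w'.2 = u * w.2 * P.r w.1 h

/-- 2-cocycles of `U` (trivial coefficients) which are locally trivial at all places `(v,γ)` -/
def ShaU2 (k : Type) [Field k] (P : Sys) (U : Subgroup P.G) (hU : U.Normal) :
    Submodule k (↥U × ↥U → k) :=
  Z2 (P.lev.sub U) (triv k ↥U) ⊓ ⨅ v, ⨅ γ,
    (B2 ((P.levv v).sub (U.comap (P.r v))) (triv k _)).comap (res2 (P.locU U hU v γ))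

/-- What we need to know about an `S`-level normal subgroup `U` of the global group
(`U = G_L`, `L/ℚ` finite Galois, unramified outside `S`, `μ_p ⊆ L`).
Arithmetic meaning: `s = #S_L + [L:ℚ]/2`, `c = dim Cl_S(L)/p`. -/
structure GlobGood {k : Type} [Field k] (P : Sys) (ρμ : Representation k P.G k)
    (U : Subgroup P.G) : Prop where
  mem : U ∈ P.lev.mem
  normal : U.Normal
  trivμ : ∀ s ∈ U, ρμ s = 1
  loc : ∀ v, LocGood (P.levv v) (P.loc ρμ v) (U.comap (P.r v))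
  /-- (X1), (X2), (X3) -/
  count : ∃ s c : ℕ,
    (∃ φ : (Fin (s + c) → k) →ₗ[k] (↥U → k), Function.Injective φ ∧
      ∀ x, φ x ∈ Z1 (P.lev.sub U) (triv k ↥U)) ∧
    (∑ v, (U ⊔ (P.r v).range).index *
      Module.finrank k ↥(Z1 ((P.levv v).sub (U.comap (P.r v))) (triv k _)) ≤ 2 * s) ∧
    Module.rank k (↥(ShaU2 k P U normal) ⧸
      (B2 (P.lev.sub U) (triv k ↥U)).comap (ShaU2 k P U normal).subtype) ≤ (c : Cardinal)
  /-- (EX) for two different places there is a class which is locally trivial at all other places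
  and non trivial at one of the two -/
  ex : ∀ w₁ w₂ : P.ι × P.G, ¬ P.SamePlace U w₁ w₂ →
    ∃ y ∈ Z2 (P.lev.sub U) (triv k ↥U),
      (∀ w : P.ι × P.G, ¬ P.SamePlace U w₁ w → ¬ P.SamePlace U w₂ w →
        res2 (k := k) (P.locU U normal w.1 w.2) y ∈
          B2 ((P.levv w.1).sub (U.comap (P.r w.1))) (triv k _)) ∧
      (res2 (k := k) (P.locU U normal w₁.1 w₁.2) y ∉
          B2 ((P.levv w₁.1).sub (U.comap (P.r w₁.1))) (triv k _) ∨
       res2 (k := k) (P.locU U normal w₂.1 w₂.2) y ∉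
          B2 ((P.levv w₂.1).sub (U.comap (P.r w₂.1))) (triv k _))

/-- All arithmetic input of the abstract theorem. -/
structure ArithInput {k : Type} [Field k] (P : Sys) (ρμ : Representation k P.G k) where
  smooth : Smooth ρμ P.lev
  τ : ∀ v : P.ι, (P.Gv v × P.Gv v → k) →ₗ[k] k
  τ_B2 : ∀ v, ∀ f ∈ B2 (P.levv v) (P.loc ρμ v), τ v f = 0
  /-- `τ_v` is injective on `H²_v(μ)` -/
  τ_inj : ∀ v, ∀ f ∈ Z2 (P.levv v) (P.loc ρμ v), τ v f = 0 → f ∈ B2 (P.levv v) (P.loc ρμ v)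
  /-- (R) reciprocity -/
  recip : ∀ y ∈ Z2 P.lev ρμ, ∑ v, τ v (res2 (k := k) (P.r v) y) = 0
  locGood : ∀ v, ∀ V ∈ (P.levv v).mem, ∃ V' ≤ V, LocGood (P.levv v) (P.loc ρμ v) V'
  globGood : ∀ U ∈ P.lev.mem, ∃ U' ≤ U, GlobGood P ρμ U'

/-! ## The statements proved by the formal machine -/

section local_statements

variable {k : Type} [Field k] {H : Type} [Group H] (𝒱 : Lev H) {ρμ : Representation k H k}
  (τ : (H × H → k) →ₗ[k] k) (D : DualPair k H ρμ)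

/-- left non-degeneracy of `H⁰(A) × H²(B) → k` -/
def Q0 : Prop :=
  ∀ a ∈ Z0 D.ρA, (∀ f ∈ Z2 𝒱 D.ρB, τ (cup02 D.φ a f) = 0) → a = 0
/-- left non-degeneracy of `H¹(A) × H¹(B) → k` -/
def Q1 : Prop :=
  ∀ x ∈ Z1 𝒱 D.ρA, (∀ y ∈ Z1 𝒱 D.ρB, τ (cup11 D.ρB D.φ x y) = 0) → x ∈ B1 D.ρA
/-- left non-degeneracy of `H²(A) × H⁰(B) → k` -/
def Q2 : Prop :=
  ∀ f ∈ Z2 𝒱 D.ρA, (∀ b ∈ Z0 D.ρB, τ (cup20 D.ρB D.φ f b) = 0) → f ∈ B2 𝒱 D.ρA

/-- local duality for the dual pair `D` (and its swap), with finiteness -/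
structure LPerfect : Prop where
  q0 : Q0 𝒱 τ D
  q1 : Q1 𝒱 τ D
  q2 : Q2 𝒱 τ D
  q0' : Q0 𝒱 τ D.swap
  q1' : Q1 𝒱 τ D.swap
  q2' : Q2 𝒱 τ D.swap
  finA : FiniteDimensional k (HH1 𝒱 D.ρA)
  finB : FiniteDimensional k (HH1 𝒱 D.ρB)

end local_statements

section global_statements

variable {k : Type} [Field k] (P : Sys) {ρμ : Representation k P.G k} (T : Trace P ρμ)
  (D : DualPair k P.G ρμ)

/-- `α¹ : H¹_c(A) → H²(B)^*` is injective -/
def A1L : Prop :=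
  ∀ x ∈ Z1c P D.ρA, (∀ y ∈ Z2 P.lev D.ρB, T.t (L1 P D x y) = 0) → x ∈ B1c P D.ρA
/-- `H¹_c(B) → H²(A)^*` (via `R1`) is injective -/
def A1R : Prop :=
  ∀ x ∈ Z1c P D.ρB, (∀ a ∈ Z2 P.lev D.ρA, T.t (R1 P D a x) = 0) → x ∈ B1c P D.ρB
/-- `α² : H²_c(A) → H¹(B)^*` is injective -/
def A2 : Prop :=
  ∀ x ∈ Z2c P D.ρA, (∀ y ∈ Z1 P.lev D.ρB, T.t (L2 P D x y) = 0) → x ∈ B2c P D.ρA
/-- `α¹ : H¹_c(A) → H²(B)^*` is surjective -/
def A1Lsurj : Prop :=
  ∀ l : (P.G × P.G → D.B) →ₗ[k] k, (∀ y ∈ B2 P.lev D.ρB, l y = 0) →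
    ∃ x ∈ Z1c P D.ρA, ∀ y ∈ Z2 P.lev D.ρB, T.t (L1 P D x y) = l y
/-- (E2): `H⁰(A) → P⁰(A) → H²(B)^*` is exact -/
def E2 : Prop :=
  ∀ b : P.ι → D.A, (∀ v, b v ∈ Z0 (P.loc D.ρA v)) →
    (∀ y ∈ Z2 P.lev D.ρB, ∑ v, T.τ v (cup02 D.φ (b v) (res2 (k := k) (P.r v) y)) = 0) →
    ∃ a ∈ Z0 D.ρA, ∀ v, b v = a

end global_statements

end Fermat.Agent.S55
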