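import Fermat.Agent.S55.Defs3

/-!
# S55 : Shapiro maps in the language of `Defs` (definitions only)
-/

set_option autoImplicit false

namespace Fermat.Agent.S55

section sh

variable {k : Type} [CommRing k] {H : Type} [Group H]
variable {A : Type} [AddCommGroup A] [Module k A]

/-- Shapiro map in degree 0: evaluate at the base coset -/
def sh0 (V : Subgroup H) : (H ⧸ V → A) →ₗ[k] A := LinearMap.proj ((1 : H) : H ⧸ V)

/-- Shapiro map in degree 1: restrict to `V`, evaluate at the base coset -/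
def sh1 (V : Subgroup H) : (H → (H ⧸ V → A)) →ₗ[k] (↥V → A) where
  toFun f := fun v => f v ((1 : H) : H ⧸ V)
  map_add' _ _ := rfl
  map_smul' _ _ := rfl

/-- Shapiro map in degree 2: restrict to `V`, evaluate at the base coset -/
def sh2 (V : Subgroup H) : (H × H → (H ⧸ V → A)) →ₗ[k] (↥V × ↥V → A) where
  toFun f := fun p => f (p.1, p.2) ((1 : H) : H ⧸ V)
  map_add' _ _ := rfl
  map_smul' _ _ := rfl

@[simp] lemma sh0_apply (V : Subgroup H) (f : H ⧸ V → A) :
    sh0 (k := k) V f = f ((1 : H) : H ⧸ V) := rfl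
@[simp] lemma sh1_apply (V : Subgroup H) (f : H → (H ⧸ V → A)) (v : ↥V) :
    sh1 (k := k) V f v = f v ((1 : H) : H ⧸ V) := rfl
@[simp] lemma sh2_apply (V : Subgroup H) (f : H × H → (H ⧸ V → A)) (p : ↥V × ↥V) :
    sh2 (k := k) V f p = f (p.1, p.2) ((1 : H) : H ⧸ V) := rfl

end sh

section orb

variable {k : Type} [CommRing k] {H G : Type} [Group H] [Group G] (r : H →* G)
variable {A : Type} [AddCommGroup A] [Module k A]

/-- the orbit map `H/r⁻¹(U) → G/U`, `hV ↦ r(h) γ⁻¹ U` (`U` normal): a bijection onto the orbit of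
`γ⁻¹U`, i.e. onto the "place" `(v,γ)`. -/
def orbPt (U : Subgroup G) (hU : U.Normal) (γ : G) : H ⧸ U.comap r → G ⧸ U :=
  Quotient.lift (s := QuotientGroup.leftRel (U.comap r))
    (fun h => ((r h * γ⁻¹ : G) : G ⧸ U)) (by
      intro a b hab
      rw [QuotientGroup.eq]
      have h1 : r (a⁻¹ * b) ∈ U := QuotientGroup.leftRel_apply.mp hab
      have h2 := hU.conj_mem _ h1 γ
      have h3 : (r a * γ⁻¹)⁻¹ * (r b * γ⁻¹) = γ * r (a⁻¹ * b) * γ⁻¹ := by
        simp [mul_assoc]
      rw [h3]; exact h2)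

@[simp] lemma orbPt_mk (U : Subgroup G) (hU : U.Normal) (γ : G) (h : H) :
    orbPt r U hU γ (h : H ⧸ U.comap r) = ((r h * γ⁻¹ : G) : G ⧸ U) := rfl

/-- restriction of functions on `G/U` to the orbit of `γ⁻¹U`, identified with `H/r⁻¹(U)` -/
def orbMap (U : Subgroup G) (hU : U.Normal) (γ : G) :
    (G ⧸ U → A) →ₗ[k] (H ⧸ U.comap r → A) where
  toFun f := fun c => f (orbPt r U hU γ c)
  map_add' _ _ := rfl
  map_smul' _ _ := rfl

@[simp] lemma orbMap_apply (U : Subgroup G) (hU : U.Normal) (γ : G) (f : G ⧸ U → A)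
    (c : H ⧸ U.comap r) : orbMap (k := k) r U hU γ f c = f (orbPt r U hU γ c) := rfl

/-- `h ↦ γ r(h) γ⁻¹`, `r⁻¹(U) → U` (general version of `Sys.locU`) -/
def conjRes (U : Subgroup G) (hU : U.Normal) (γ : G) : ↥(U.comap r) →* ↥U where
  toFun h := ⟨γ * r h * γ⁻¹, hU.conj_mem _ h.2 γ⟩
  map_one' := by ext; simp
  map_mul' a b := by ext; simp [mul_assoc]

end orb

lemma Sys.locU_eq (P : Sys) (U : Subgroup P.G) (hU : U.Normal) (v : P.ι) (γ : P.G) :
    P.locU U hU v γ = conjRes (P.r v) U hU γ := rfl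

end Fermat.Agent.S55
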