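import Fermat.Agent.S55.T.SmoothMu
import Fermat.Agent.S55.LDB.Export
import Fermat.Agent.S55.BRG.Final
import Fermat.Agent.S55.SREF.Glob

/-!
# S55 : assembly of the arithmetic input

`ArithInput (sysS S) (muRep p)` from the four arithmetic exports:
* `smooth_muRep` (module T / DIC): `μ_p` is an `S`-level module (`p ∈ S`);
* `BRG.exists_tau_recip`: local invariant maps and the reciprocity law;
* `LDB.exists_locGood_sys`: local duality, base case;
* `SREF.globGood`: the global base case (counting, `S`-units, class groups, Hasse principle).
-/

set_option autoImplicit false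

open ExtCitation

namespace Fermat.Agent.S55

theorem arithInput (p : ℕ) [Fact p.Prime] (hp2 : p ≠ 2) (S : Finset Nat.Primes)
    (hpS : pPrime p ∈ S) : Nonempty (ArithInput (sysS S) (muRep p)) := by
  obtain ⟨τ, h1, h2, h3⟩ := BRG.exists_tau_recip p hp2 S hpS
  exact ⟨{ smooth := smooth_muRep p S hpS
           τ := τ
           τ_B2 := h1
           τ_inj := h2
           recip := h3
           locGood := fun v => LDB.exists_locGood_sys S v
           globGood := SREF.globGood hp2 hpS }⟩

end Fermat.Agent.S55
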