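import Mathlib

/-!
# S55 : common definitions

Levels, level-constant cochains, differentials, restriction, cup products, cocycles/coboundaries
in degrees `≤ 2`, cone ("compact support") cocycles in degrees `1, 2`, dual pairs, coinduced
modules.

Conventions.
* A coefficient module is a `k`-module `A` together with `ρ : Representation k G A`
  (NO type classes for the action: the same type carries several actions).
* A group `H` mapping to `G` by `r : H →* G` acts through `ρ.comp r`.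
* Everything lives in `Type`.
* "Cohomology classes" are handled at the level of cocycles: `x ∈ Z1 𝒰 ρ`, `x ∈ B1 ρ`, ...
  The quotient types `HH1`, `HH2` are only used for dimension counts.
-/

set_option autoImplicit false

namespace Fermat.Agent.S55

/-- A level structure on a group: a nonempty, downward directed family of finite index subgroups
in which the normal ones are cofinal ("basis of open subgroups"). -/
structure Lev (H : Type) [Group H] where
  mem : Set (Subgroup H)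
  nonempty : mem.Nonempty
  directed : ∀ U ∈ mem, ∀ V ∈ mem, ∃ W ∈ mem, W ≤ U ∧ W ≤ V
  normal : ∀ U ∈ mem, ∃ W ∈ mem, W ≤ U ∧ W.Normal
  finiteIndex : ∀ U ∈ mem, U.FiniteIndex

section LC

variable {H : Type} [Group H] (𝒰 : Lev H) {X : Type*}

/-- level-constant 1-cochains (same shape as `groupCohomology.IsLevelConstant₁`). -/
def LC1 (f : H → X) : Prop := ∃ U ∈ 𝒰.mem, ∀ g s : H, s ∈ U → f (g * s) = f g

def LC2 (f : H × H → X) : Prop :=
  ∃ U ∈ 𝒰.mem, ∀ g g' s s' : H, s ∈ U → s' ∈ U → f (g * s, g' * s') = f (g, g')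

def LC3 (f : H × H × H → X) : Prop :=
  ∃ U ∈ 𝒰.mem, ∀ g g' g'' s s' s'' : H, s ∈ U → s' ∈ U → s'' ∈ U →
    f (g * s, g' * s', g'' * s'') = f (g, g', g'')

end LC

section cochains

variable (k : Type) [CommRing k] {H : Type} [Group H] (𝒰 : Lev H)
variable (A : Type) [AddCommGroup A] [Module k A]

/-- level-constant 1-cochains as a submodule -/
def C1 : Submodule k (H → A) where
  carrier := {f | LC1 𝒰 f}
  add_mem' := by
    rintro f f' ⟨U, hU, h⟩ ⟨U', hU', h'⟩
    obtain ⟨W, hW, hWU, hWU'⟩ := 𝒰.directed U hU U' hU'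
    exact ⟨W, hW, fun g s hs => by simp [h g s (hWU hs), h' g s (hWU' hs)]⟩
  zero_mem' := by
    obtain ⟨U, hU⟩ := 𝒰.nonempty
    exact ⟨U, hU, fun _ _ _ => rfl⟩
  smul_mem' := by
    rintro c f ⟨U, hU, h⟩
    exact ⟨U, hU, fun g s hs => by simp [h g s hs]⟩

def C2 : Submodule k (H × H → A) where
  carrier := {f | LC2 𝒰 f}
  add_mem' := by
    rintro f f' ⟨U, hU, h⟩ ⟨U', hU', h'⟩
    obtain ⟨W, hW, hWU, hWU'⟩ := 𝒰.directed U hU U' hU'
    exact ⟨W, hW, fun g g' s s' hs hs' => by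
      simp [h g g' s s' (hWU hs) (hWU hs'), h' g g' s s' (hWU' hs) (hWU' hs')]⟩
  zero_mem' := by
    obtain ⟨U, hU⟩ := 𝒰.nonempty
    exact ⟨U, hU, fun _ _ _ _ _ _ => rfl⟩
  smul_mem' := by
    rintro c f ⟨U, hU, h⟩
    exact ⟨U, hU, fun g g' s s' hs hs' => by simp [h g g' s s' hs hs']⟩

def C3 : Submodule k (H × H × H → A) where
  carrier := {f | LC3 𝒰 f}
  add_mem' := by
    rintro f f' ⟨U, hU, h⟩ ⟨U', hU', h'⟩
    obtain ⟨W, hW, hWU, hWU'⟩ := 𝒰.directed U hU U' hU'
    exact ⟨W, hW, fun g g' g'' s s' s'' hs hs' hs'' => by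
      simp [h g g' g'' s s' s'' (hWU hs) (hWU hs') (hWU hs''),
        h' g g' g'' s s' s'' (hWU' hs) (hWU' hs') (hWU' hs'')]⟩
  zero_mem' := by
    obtain ⟨U, hU⟩ := 𝒰.nonempty
    exact ⟨U, hU, fun _ _ _ _ _ _ _ _ _ => rfl⟩
  smul_mem' := by
    rintro c f ⟨U, hU, h⟩
    exact ⟨U, hU, fun g g' g'' s s' s'' hs hs' hs'' => by simp [h g g' g'' s s' s'' hs hs' hs'']⟩

variable {k 𝒰 A}

@[simp] lemma mem_C1 {f : H → A} : f ∈ C1 k 𝒰 A ↔ LC1 𝒰 f := Iff.rfl
@[simp] lemma mem_C2 {f : H × H → A} : f ∈ C2 k 𝒰 A ↔ LC2 𝒰 f := Iff.rfl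
@[simp] lemma mem_C3 {f : H × H × H → A} : f ∈ C3 k 𝒰 A ↔ LC3 𝒰 f := Iff.rfl

end cochains

section diff

variable {k : Type} [CommRing k] {H : Type} [Group H]
variable {A : Type} [AddCommGroup A] [Module k A] (ρ : Representation k H A)

/-- `(d⁰ a)(g) = g a - a` -/
def d0 : A →ₗ[k] (H → A) where
  toFun a := fun g => ρ g a - a
  map_add' a b := by ext g; simp; abel
  map_smul' c a := by ext g; simp [smul_sub]

/-- `(d¹ x)(g,h) = g x(h) - x(gh) + x(g)` -/
def d1 : (H → A) →ₗ[k] (H × H → A) where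
  toFun x := fun p => ρ p.1 (x p.2) - x (p.1 * p.2) + x p.1
  map_add' a b := by ext g; simp; abel
  map_smul' c a := by ext g; simp [smul_sub, smul_add]

/-- `(d² f)(g,h,j) = g f(h,j) - f(gh,j) + f(g,hj) - f(g,h)` -/
def d2 : (H × H → A) →ₗ[k] (H × H × H → A) where
  toFun f := fun p =>
    ρ p.1 (f (p.2.1, p.2.2)) - f (p.1 * p.2.1, p.2.2) + f (p.1, p.2.1 * p.2.2) - f (p.1, p.2.1)
  map_add' a b := by ext g; simp; abel
  map_smul' c a := by ext g; simp [smul_sub, smul_add]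

@[simp] lemma d0_apply (a : A) (g : H) : d0 ρ a g = ρ g a - a := rfl
@[simp] lemma d1_apply (x : H → A) (p : H × H) :
    d1 ρ x p = ρ p.1 (x p.2) - x (p.1 * p.2) + x p.1 := rfl
@[simp] lemma d2_apply (f : H × H → A) (p : H × H × H) :
    d2 ρ f p = ρ p.1 (f (p.2.1, p.2.2)) - f (p.1 * p.2.1, p.2.2) + f (p.1, p.2.1 * p.2.2)
      - f (p.1, p.2.1) := rfl

/-- the representation is trivial on some level. -/
def Smooth (𝒰 : Lev H) : Prop := ∃ U ∈ 𝒰.mem, ∀ s ∈ U, ρ s = 1

end diff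

section res

variable {k : Type} [CommRing k] {H G : Type} [Group H] [Group G] (r : H →* G)
variable {A : Type} [AddCommGroup A] [Module k A]

/-- pull-back of cochains along `r : H →* G` -/
def res1 : (G → A) →ₗ[k] (H → A) where
  toFun x := fun g => x (r g)
  map_add' _ _ := rfl
  map_smul' _ _ := rfl

def res2 : (G × G → A) →ₗ[k] (H × H → A) where
  toFun x := fun p => x (r p.1, r p.2)
  map_add' _ _ := rfl
  map_smul' _ _ := rfl

def res3 : (G × G × G → A) →ₗ[k] (H × H × H → A) where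
  toFun x := fun p => x (r p.1, r p.2.1, r p.2.2)
  map_add' _ _ := rfl
  map_smul' _ _ := rfl

@[simp] lemma res1_apply (x : G → A) (g : H) : res1 (k := k) r x g = x (r g) := rfl
@[simp] lemma res2_apply (x : G × G → A) (p : H × H) :
    res2 (k := k) r x p = x (r p.1, r p.2) := rfl
@[simp] lemma res3_apply (x : G × G × G → A) (p : H × H × H) :
    res3 (k := k) r x p = x (r p.1, r p.2.1, r p.2.2) := rfl

end res

section push

variable {k : Type} [CommRing k] {X : Type}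
variable {A B : Type} [AddCommGroup A] [Module k A] [AddCommGroup B] [Module k B]

/-- push-forward of cochains (functions on any `X`) along a linear map of coefficients -/
def push (u : A →ₗ[k] B) : (X → A) →ₗ[k] (X → B) where
  toFun x := fun g => u (x g)
  map_add' _ _ := by ext; simp
  map_smul' _ _ := by ext; simp

@[simp] lemma push_apply (u : A →ₗ[k] B) (x : X → A) (g : X) : push u x g = u (x g) := rfl

end push

section cup

variable {k : Type} [CommRing k] {H : Type} [Group H]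
variable {A B M : Type} [AddCommGroup A] [Module k A] [AddCommGroup B] [Module k B]
  [AddCommGroup M] [Module k M] (ρB : Representation k H B)
variable (φ : A →ₗ[k] B →ₗ[k] M)

/-! cup products `(x ∪ y)(g₁..g_{p+q}) = φ (x(g₁..g_p)) (g₁⋯g_p • y(g_{p+1}..))`,
bundled as bilinear maps. -/

def cup01 : A →ₗ[k] (H → B) →ₗ[k] (H → M) :=
  LinearMap.mk₂ k (fun a y g => φ a (y g))
    (by intros; ext; simp) (by intros; ext; simp) (by intros; ext; simp) (by intros; ext; simp)

def cup02 : A →ₗ[k] (H × H → B) →ₗ[k] (H × H → M) :=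
  LinearMap.mk₂ k (fun a y p => φ a (y p))
    (by intros; ext; simp) (by intros; ext; simp) (by intros; ext; simp) (by intros; ext; simp)

def cup10 : (H → A) →ₗ[k] B →ₗ[k] (H → M) :=
  LinearMap.mk₂ k (fun x b g => φ (x g) (ρB g b))
    (by intros; ext; simp) (by intros; ext; simp) (by intros; ext; simp) (by intros; ext; simp)

def cup11 : (H → A) →ₗ[k] (H → B) →ₗ[k] (H × H → M) :=
  LinearMap.mk₂ k (fun x y p => φ (x p.1) (ρB p.1 (y p.2)))
    (by intros; ext; simp) (by intros; ext; simp) (by intros; ext; simp) (by intros; ext; simp)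

def cup12 : (H → A) →ₗ[k] (H × H → B) →ₗ[k] (H × H × H → M) :=
  LinearMap.mk₂ k (fun x y p => φ (x p.1) (ρB p.1 (y p.2)))
    (by intros; ext; simp) (by intros; ext; simp) (by intros; ext; simp) (by intros; ext; simp)

def cup20 : (H × H → A) →ₗ[k] B →ₗ[k] (H × H → M) :=
  LinearMap.mk₂ k (fun f b p => φ (f p) (ρB (p.1 * p.2) b))
    (by intros; ext; simp) (by intros; ext; simp) (by intros; ext; simp) (by intros; ext; simp)

def cup21 : (H × H → A) →ₗ[k] (H → B) →ₗ[k] (H × H × H → M) :=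
  LinearMap.mk₂ k (fun f y p => φ (f (p.1, p.2.1)) (ρB (p.1 * p.2.1) (y p.2.2)))
    (by intros; ext; simp) (by intros; ext; simp) (by intros; ext; simp) (by intros; ext; simp)

@[simp] lemma cup01_apply (a : A) (y : H → B) (g : H) : cup01 φ a y g = φ a (y g) := rfl
@[simp] lemma cup02_apply (a : A) (y : H × H → B) (p : H × H) : cup02 φ a y p = φ a (y p) := rfl
@[simp] lemma cup10_apply (x : H → A) (b : B) (g : H) :
    cup10 ρB φ x b g = φ (x g) (ρB g b) := rfl
@[simp] lemma cup11_apply (x : H → A) (y : H → B) (p : H × H) :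
    cup11 ρB φ x y p = φ (x p.1) (ρB p.1 (y p.2)) := rfl
@[simp] lemma cup12_apply (x : H → A) (y : H × H → B) (p : H × H × H) :
    cup12 ρB φ x y p = φ (x p.1) (ρB p.1 (y p.2)) := rfl
@[simp] lemma cup20_apply (f : H × H → A) (b : B) (p : H × H) :
    cup20 ρB φ f b p = φ (f p) (ρB (p.1 * p.2) b) := rfl
@[simp] lemma cup21_apply (f : H × H → A) (y : H → B) (p : H × H × H) :
    cup21 ρB φ f y p = φ (f (p.1, p.2.1)) (ρB (p.1 * p.2.1) (y p.2.2)) := rfl

end cup

section cohomology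

variable {k : Type} [CommRing k] {H : Type} [Group H] (𝒰 : Lev H)
variable {A : Type} [AddCommGroup A] [Module k A] (ρ : Representation k H A)

/-- invariants -/
def Z0 : Submodule k A := LinearMap.ker (d0 ρ)
/-- level-constant 1-cocycles -/
def Z1 : Submodule k (H → A) := C1 k 𝒰 A ⊓ LinearMap.ker (d1 ρ)
/-- 1-coboundaries -/
def B1 : Submodule k (H → A) := LinearMap.range (d0 ρ)
/-- level-constant 2-cocycles -/
def Z2 : Submodule k (H × H → A) := C2 k 𝒰 A ⊓ LinearMap.ker (d2 ρ)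
/-- coboundaries of level-constant 1-cochains -/
def B2 : Submodule k (H × H → A) := (C1 k 𝒰 A).map (d1 ρ)

variable {𝒰 ρ}

lemma mem_Z0 {a : A} : a ∈ Z0 ρ ↔ ∀ g, ρ g a = a := by
  simp only [Z0, LinearMap.mem_ker, funext_iff, d0_apply, Pi.zero_apply, sub_eq_zero]
lemma mem_Z1 {x : H → A} : x ∈ Z1 𝒰 ρ ↔ LC1 𝒰 x ∧ d1 ρ x = 0 := Iff.rfl
lemma mem_B1 {x : H → A} : x ∈ B1 ρ ↔ ∃ a, d0 ρ a = x := Iff.rfl
lemma mem_Z2 {x : H × H → A} : x ∈ Z2 𝒰 ρ ↔ LC2 𝒰 x ∧ d2 ρ x = 0 := Iff.rfl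
lemma mem_B2 {x : H × H → A} : x ∈ B2 𝒰 ρ ↔ ∃ y, LC1 𝒰 y ∧ d1 ρ y = x := Iff.rfl

variable (𝒰 ρ)

/-- cohomology groups as quotient types (only used for dimension counts). -/
abbrev HH1 : Type := ↥(Z1 𝒰 ρ) ⧸ (B1 ρ).comap (Z1 𝒰 ρ).subtype
abbrev HH2 : Type := ↥(Z2 𝒰 ρ) ⧸ (B2 𝒰 ρ).comap (Z2 𝒰 ρ).subtype

end cohomology

/-! ## Global system: a group with levels and finitely many "local" groups mapping to it -/

structure Sys where
  G : Type
  [grp : Group G]
  lev : Lev G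
  ι : Type
  [fin : Fintype ι]
  Gv : ι → Type
  [grpv : ∀ v, Group (Gv v)]
  levv : ∀ v, Lev (Gv v)
  r : ∀ v, Gv v →* G
  compat : ∀ v, ∀ U ∈ lev.mem, U.comap (r v) ∈ (levv v).mem

attribute [instance] Sys.grp Sys.fin Sys.grpv

section cone

variable {k : Type} [CommRing k] (P : Sys)
variable {A : Type} [AddCommGroup A] [Module k A] (ρ : Representation k P.G A)

/-- the local representation at `v` -/
abbrev Sys.loc (v : P.ι) : Representation k (P.Gv v) A := ρ.comp (P.r v)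

/-- cone differential in degree 0: `a ↦ (d a, (a)_v)` -/
def coneD0 : A →ₗ[k] (P.G → A) × (P.ι → A) :=
  (d0 ρ).prod (LinearMap.pi fun _ => LinearMap.id)

/-- cone differential in degree 1: `(α, β) ↦ (d α, (res_v α - d β_v)_v)` -/
def coneD1 : (P.G → A) × (P.ι → A) →ₗ[k] (P.G × P.G → A) × (∀ v : P.ι, P.Gv v → A) :=
  ((d1 ρ).comp (LinearMap.fst k _ _)).prod
    (LinearMap.pi fun v => (res1 (P.r v)).comp (LinearMap.fst k _ _) -
      ((d0 (P.loc ρ v)).comp (LinearMap.proj v)).comp (LinearMap.snd k _ _))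

/-- cone differential in degree 2: `(α, β) ↦ (d α, (res_v α - d β_v)_v)` -/
def coneD2 : (P.G × P.G → A) × (∀ v : P.ι, P.Gv v → A) →ₗ[k]
    (P.G × P.G × P.G → A) × (∀ v : P.ι, P.Gv v × P.Gv v → A) :=
  ((d2 ρ).comp (LinearMap.fst k _ _)).prod
    (LinearMap.pi fun v => (res2 (P.r v)).comp (LinearMap.fst k _ _) -
      ((d1 (P.loc ρ v)).comp (LinearMap.proj v)).comp (LinearMap.snd k _ _))

@[simp] lemma coneD0_apply (a : A) : coneD0 P ρ a = (d0 ρ a, fun _ => a) := rfl
@[simp] lemma coneD1_apply (x : (P.G → A) × (P.ι → A)) :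
    coneD1 P ρ x = (d1 ρ x.1, fun v => res1 (k := k) (P.r v) x.1 - d0 (P.loc ρ v) (x.2 v)) := rfl
@[simp] lemma coneD2_apply (x : (P.G × P.G → A) × (∀ v : P.ι, P.Gv v → A)) :
    coneD2 P ρ x = (d2 ρ x.1, fun v => res2 (k := k) (P.r v) x.1 - d1 (P.loc ρ v) (x.2 v)) := rfl

variable (k A) in
/-- level-constant cone cochains of degree 1 -/
def CC1 : Submodule k ((P.G → A) × (P.ι → A)) := (C1 k P.lev A).prod ⊤
variable (k A) in
/-- level-constant cone cochains of degree 2 -/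
def CC2 : Submodule k ((P.G × P.G → A) × (∀ v : P.ι, P.Gv v → A)) :=
  (C2 k P.lev A).prod (Submodule.pi Set.univ fun v => C1 k (P.levv v) A)

def Z1c : Submodule k ((P.G → A) × (P.ι → A)) := CC1 k P A ⊓ LinearMap.ker (coneD1 P ρ)
def B1c : Submodule k ((P.G → A) × (P.ι → A)) := LinearMap.range (coneD0 P ρ)
def Z2c : Submodule k ((P.G × P.G → A) × (∀ v : P.ι, P.Gv v → A)) :=
  CC2 k P A ⊓ LinearMap.ker (coneD2 P ρ)
def B2c : Submodule k ((P.G × P.G → A) × (∀ v : P.ι, P.Gv v → A)) :=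
  (CC1 k P A).map (coneD1 P ρ)
def B3c : Submodule k ((P.G × P.G × P.G → A) × (∀ v : P.ι, P.Gv v × P.Gv v → A)) :=
  (CC2 k P A).map (coneD2 P ρ)

/-- locally trivial 1-cocycles / 2-cocycles -/
def Sha1 : Submodule k (P.G → A) :=
  Z1 P.lev ρ ⊓ ⨅ v, (B1 (P.loc ρ v)).comap (res1 (P.r v))
def Sha2 : Submodule k (P.G × P.G → A) :=
  Z2 P.lev ρ ⊓ ⨅ v, (B2 (P.levv v) (P.loc ρ v)).comap (res2 (P.r v))

end cone

end Fermat.Agent.S55
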