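import Fermat.Agent.S55.Defs

/-!
# S55 : common definitions, part 2
`Lev.comap`, coinduced representations, dual pairs, embeddings / short exact sequences of dual
pairs, the three global pairings `L1, L2, R1` (cochain level), trace data.
-/

set_option autoImplicit false

namespace Fermat.Agent.S55

/-- pull-back of a level structure along a homomorphism -/
def Lev.comap {G H : Type} [Group G] [Group H] (𝒰 : Lev G) (r : H →* G) : Lev H where
  mem := {W | ∃ V ∈ 𝒰.mem, W = V.comap r}
  nonempty := by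
    obtain ⟨U, hU⟩ := 𝒰.nonempty
    exact ⟨_, U, hU, rfl⟩
  directed := by
    rintro _ ⟨U, hU, rfl⟩ _ ⟨V, hV, rfl⟩
    obtain ⟨W, hW, h1, h2⟩ := 𝒰.directed U hU V hV
    exact ⟨_, ⟨W, hW, rfl⟩, Subgroup.comap_mono h1, Subgroup.comap_mono h2⟩
  normal := by
    rintro _ ⟨U, hU, rfl⟩
    obtain ⟨W, hW, h1, h2⟩ := 𝒰.normal U hU
    exact ⟨_, ⟨W, hW, rfl⟩, Subgroup.comap_mono h1, h2.comap r⟩
  finiteIndex := by
    rintro _ ⟨U, hU, rfl⟩
    have h := 𝒰.finiteIndex U hU
    refine ⟨?_⟩
    rw [Subgroup.index_comap]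
    exact fun h0 => h.index_ne_zero (Subgroup.index_eq_zero_of_relIndex_eq_zero h0)

/-- the induced level structure on a subgroup -/
abbrev Lev.sub {G : Type} [Group G] (𝒰 : Lev G) (U : Subgroup G) : Lev ↥U := 𝒰.comap U.subtype

section coind

variable {k : Type} [CommRing k] {G : Type} [Group G]
variable {A : Type} [AddCommGroup A] [Module k A]

/-- `Map(X, A)` with the diagonal action `(g f)(x) = g (f (g⁻¹ x))`. -/
def coind (X : Type) [MulAction G X] (ρ : Representation k G A) : Representation k G (X → A) where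
  toFun g :=
    { toFun := fun f x => ρ g (f (g⁻¹ • x))
      map_add' := fun f f' => by ext x; simp
      map_smul' := fun c f => by ext x; simp }
  map_one' := by ext f x; simp
  map_mul' g h := by ext f x; simp [mul_smul]

@[simp] lemma coind_apply (X : Type) [MulAction G X] (ρ : Representation k G A) (g : G)
    (f : X → A) (x : X) : coind X ρ g f x = ρ g (f (g⁻¹ • x)) := rfl

/-- constant functions `A → Map(X, A)` -/
def constL (X : Type) : A →ₗ[k] (X → A) := LinearMap.pi fun _ => LinearMap.id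

open Classical in
/-- summation `Map(X, A) → A` (junk value `0` if `X` is infinite; no `Fintype` instance in the
statement, use `sumL_apply`). -/
noncomputable def sumL (X : Type) : (X → A) →ₗ[k] A :=
  if _h : Finite X then (letI := Fintype.ofFinite X; ∑ x, LinearMap.proj x) else 0

@[simp] lemma constL_apply (X : Type) (a : A) (x : X) : constL (k := k) X a x = a := rfl
@[simp] lemma sumL_apply (X : Type) [Fintype X] (f : X → A) : sumL (k := k) X f = ∑ x, f x := by
  have h : Finite X := inferInstance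
  simp only [sumL, dif_pos h, LinearMap.sum_apply, LinearMap.proj_apply]
  exact Finset.sum_congr (by ext; simp) (fun _ _ => rfl)

end coind

/-! ## Dual pairs -/

/-- A dual pair of finite dimensional `k[G]`-modules: an equivariant perfect pairing
`A × B → μ`, where `μ = k` with the action `ρμ`. -/
structure DualPair (k : Type) [Field k] (G : Type) [Group G] (ρμ : Representation k G k) where
  A : Type
  B : Type
  [acgA : AddCommGroup A]
  [modA : Module k A]
  [finA : FiniteDimensional k A]
  [acgB : AddCommGroup B]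
  [modB : Module k B]
  [finB : FiniteDimensional k B]
  ρA : Representation k G A
  ρB : Representation k G B
  φ : A →ₗ[k] B →ₗ[k] k
  equiv : ∀ g a b, φ (ρA g a) (ρB g b) = ρμ g (φ a b)
  left : ∀ a, (∀ b, φ a b = 0) → a = 0
  right : ∀ b, (∀ a, φ a b = 0) → b = 0

attribute [instance] DualPair.acgA DualPair.modA DualPair.finA DualPair.acgB DualPair.modB
  DualPair.finB

namespace DualPair

variable {k : Type} [Field k] {G : Type} [Group G] {ρμ : Representation k G k}

/-- both modules are trivial on a level -/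
def IsSmooth (D : DualPair k G ρμ) (𝒰 : Lev G) : Prop := Smooth D.ρA 𝒰 ∧ Smooth D.ρB 𝒰

/-- both modules are trivial on the subgroup `U` -/
def TrivOn (D : DualPair k G ρμ) (U : Subgroup G) : Prop :=
  (∀ s ∈ U, D.ρA s = 1) ∧ (∀ s ∈ U, D.ρB s = 1)

/-- exchange the two sides -/
abbrev swap (D : DualPair k G ρμ) : DualPair k G ρμ where
  A := D.B
  B := D.A
  ρA := D.ρB
  ρB := D.ρA
  φ := D.φ.flip
  equiv g a b := D.equiv g b a
  left := D.right
  right := D.left

/-- restriction along `r : H →* G` -/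
abbrev res {H : Type} [Group H] (D : DualPair k G ρμ) (r : H →* G) : DualPair k H (ρμ.comp r) where
  A := D.A
  B := D.B
  ρA := D.ρA.comp r
  ρB := D.ρB.comp r
  φ := D.φ
  equiv g a b := D.equiv (r g) a b
  left := D.left
  right := D.right

/-- the pointwise pairing `Map(X,A) × Map(X,B) → Map(X,k)` -/
def ptPair {A B : Type} [AddCommGroup A] [Module k A] [AddCommGroup B] [Module k B]
    (X : Type) (φ : A →ₗ[k] B →ₗ[k] k) : (X → A) →ₗ[k] (X → B) →ₗ[k] (X → k) :=
  LinearMap.mk₂ k (fun f f' x => φ (f x) (f' x))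
    (by intros; ext; simp) (by intros; ext; simp) (by intros; ext; simp) (by intros; ext; simp)

@[simp] lemma ptPair_apply {A B : Type} [AddCommGroup A] [Module k A] [AddCommGroup B]
    [Module k B] (X : Type) (φ : A →ₗ[k] B →ₗ[k] k) (f : X → A) (f' : X → B) (x : X) :
    ptPair X φ f f' x = φ (f x) (f' x) := rfl

/-- the pairing `Map(X,A) × Map(X,B) → k`, `(f, f') ↦ ∑ₓ φ (f x) (f' x)` -/
noncomputable def sumPair {A B : Type} [AddCommGroup A] [Module k A] [AddCommGroup B] [Module k B]
    (X : Type) (φ : A →ₗ[k] B →ₗ[k] k) : (X → A) →ₗ[k] (X → B) →ₗ[k] k :=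
  (ptPair X φ).compr₂ (sumL X)

@[simp] lemma sumPair_apply {A B : Type} [AddCommGroup A] [Module k A] [AddCommGroup B]
    [Module k B] (X : Type) [Fintype X] (φ : A →ₗ[k] B →ₗ[k] k) (f : X → A) (f' : X → B) :
    sumPair X φ f f' = ∑ x, φ (f x) (f' x) := by
  simp [sumPair]

/-- the coinduced dual pair `(Map(X,A), Map(X,B))` -/
noncomputable abbrev coind (D : DualPair k G ρμ) (X : Type) [Finite X] [MulAction G X] :
    DualPair k G ρμ where
  A := X → D.A
  B := X → D.B
  ρA := S55.coind X D.ρA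
  ρB := S55.coind X D.ρB
  φ := sumPair X D.φ
  equiv g f f' := by
    cases nonempty_fintype X
    simp only [sumPair_apply, coind_apply, D.equiv, ← map_sum]
    congr 1
    exact Fintype.sum_equiv (MulAction.toPerm g⁻¹) _ _ (fun x => rfl)
  left f h := by
    classical
    cases nonempty_fintype X
    ext x
    refine D.left _ fun b => ?_
    have := h (Pi.single x b)
    rw [sumPair_apply, Finset.sum_eq_single x] at this
    · simpa using this
    · intro y _ hy; simp [Pi.single_eq_of_ne hy]
    · intro hx; exact absurd (Finset.mem_univ x) hx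
  right f h := by
    classical
    cases nonempty_fintype X
    ext x
    refine D.right _ fun b => ?_
    have := h (Pi.single x b)
    rw [sumPair_apply, Finset.sum_eq_single x] at this
    · simpa using this
    · intro y _ hy; simp [Pi.single_eq_of_ne hy]
    · intro hx; exact absurd (Finset.mem_univ x) hx

/-- An embedding of dual pairs `D ↪ I`: an injection `i : D.A → I.A` with its adjoint
`p : I.B → D.B`. -/
structure Emb (D I : DualPair k G ρμ) where
  i : D.A →ₗ[k] I.A
  p : I.B →ₗ[k] D.B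
  i_inj : Function.Injective i
  i_equiv : ∀ g a, i (D.ρA g a) = I.ρA g (i a)
  p_equiv : ∀ g b, p (I.ρB g b) = D.ρB g (p b)
  adj : ∀ a b, I.φ (i a) b = D.φ a (p b)

/-- A short exact sequence of dual pairs: `0 → D.A → I.A → Q.A → 0` and the dual sequence
`0 → Q.B → I.B → D.B → 0`. -/
structure SES (D I Q : DualPair k G ρμ) extends Emb D I where
  π : I.A →ₗ[k] Q.A
  j : Q.B →ₗ[k] I.B
  π_surj : Function.Surjective π
  p_surj : Function.Surjective p
  j_inj : Function.Injective j
  π_equiv : ∀ g a, π (I.ρA g a) = Q.ρA g (π a)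
  j_equiv : ∀ g b, j (Q.ρB g b) = I.ρB g (j b)
  adj' : ∀ a b, Q.φ (π a) b = I.φ a (j b)
  exact_A : ∀ x, π x = 0 ↔ ∃ a, i a = x
  exact_B : ∀ y, p y = 0 ↔ ∃ b, j b = y

/-- the diagonal embedding `D ↪ D.coind X` (constant functions / summation) -/
noncomputable def coindEmb (D : DualPair k G ρμ) (X : Type) [Finite X] [MulAction G X] [Nonempty X] :
    Emb D (D.coind X) where
  i := constL X
  p := sumL X
  i_inj a b h := by
    obtain ⟨x⟩ := ‹Nonempty X›
    exact congrFun h x
  i_equiv g a := by ext x; rfl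
  p_equiv g f := by
    cases nonempty_fintype X
    show sumL X (S55.coind X D.ρB g f) = _
    simp only [sumL_apply, coind_apply, ← map_sum]
    congr 1
    exact Fintype.sum_equiv (MulAction.toPerm g⁻¹) _ _ (fun x => rfl)
  adj a f := by
    cases nonempty_fintype X
    show sumPair X D.φ (constL X a) f = D.φ a (sumL X f)
    simp

end DualPair

/-! ## The three global pairings, at cochain level, with values in the degree 3 cone cochains -/

section pairings

variable {k : Type} [Field k] (P : Sys) {ρμ : Representation k P.G k}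
  (D : DualPair k P.G ρμ)

/-- degree 3 cone cochains with values in `μ = k` -/
abbrev X3 (k : Type) (P : Sys) : Type :=
  (P.G × P.G × P.G → k) × (∀ v : P.ι, P.Gv v × P.Gv v → k)

/-- `L1 (a,b) y = (a ∪ y, (b_v ∪ y_v))`, `(a,b)` of cone degree 1 in `A`, `y` of degree 2 in `B` -/
def L1 : (P.G → D.A) × (P.ι → D.A) →ₗ[k] (P.G × P.G → D.B) →ₗ[k] X3 k P :=
  LinearMap.mk₂ k (fun x y => (cup12 D.ρB D.φ x.1 y,
      fun v => cup02 D.φ (x.2 v) (res2 (k := k) (P.r v) y)))
    (by intros; ext <;> simp) (by intros; ext <;> simp)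
    (by intros; ext <;> simp) (by intros; ext <;> simp)

/-- `L2 (a,b) y = (a ∪ y, (b_v ∪ y_v))`, `(a,b)` of cone degree 2 in `A`, `y` of degree 1 in `B` -/
def L2 : (P.G × P.G → D.A) × (∀ v : P.ι, P.Gv v → D.A) →ₗ[k] (P.G → D.B) →ₗ[k] X3 k P :=
  LinearMap.mk₂ k (fun x y => (cup21 D.ρB D.φ x.1 y,
      fun v => cup11 (P.loc D.ρB v) D.φ (x.2 v) (res1 (k := k) (P.r v) y)))
    (by intros; ext <;> simp) (by intros; ext <;> simp)
    (by intros; ext <;> simp) (by intros; ext <;> simp)

/-- `R1 a (y,c) = (a ∪ y, (a_v ∪ c_v))`, `a` of degree 2 in `A`, `(y,c)` of cone degree 1 in `B` -/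
def R1 : (P.G × P.G → D.A) →ₗ[k] (P.G → D.B) × (P.ι → D.B) →ₗ[k] X3 k P :=
  LinearMap.mk₂ k (fun a y => (cup21 D.ρB D.φ a y.1,
      fun v => cup20 (P.loc D.ρB v) D.φ (res2 (k := k) (P.r v) a) (y.2 v)))
    (by intros; ext <;> simp) (by intros; ext <;> simp)
    (by intros; ext <;> simp) (by intros; ext <;> simp)

@[simp] lemma L1_apply (x : (P.G → D.A) × (P.ι → D.A)) (y : P.G × P.G → D.B) :
    L1 P D x y = (cup12 D.ρB D.φ x.1 y,
      fun v => cup02 D.φ (x.2 v) (res2 (k := k) (P.r v) y)) := rfl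
@[simp] lemma L2_apply (x : (P.G × P.G → D.A) × (∀ v : P.ι, P.Gv v → D.A)) (y : P.G → D.B) :
    L2 P D x y = (cup21 D.ρB D.φ x.1 y,
      fun v => cup11 (P.loc D.ρB v) D.φ (x.2 v) (res1 (k := k) (P.r v) y)) := rfl
@[simp] lemma R1_apply (a : P.G × P.G → D.A) (y : (P.G → D.B) × (P.ι → D.B)) :
    R1 P D a y = (cup21 D.ρB D.φ a y.1,
      fun v => cup20 (P.loc D.ρB v) D.φ (res2 (k := k) (P.r v) a) (y.2 v)) := rfl

end pairings

/-- Trace datum: local functionals `τ_v` on `H²_v(μ)` and a functional `t` on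
(degree 3 cone cochains)/(coboundaries) extending `∑ τ_v`. -/
structure Trace {k : Type} [Field k] (P : Sys) (ρμ : Representation k P.G k) where
  τ : ∀ v : P.ι, (P.Gv v × P.Gv v → k) →ₗ[k] k
  τ_B2 : ∀ v, ∀ f ∈ B2 (P.levv v) (P.loc ρμ v), τ v f = 0
  t : X3 k P →ₗ[k] k
  t_B3c : ∀ x ∈ B3c P ρμ, t x = 0
  t_loc : ∀ z : (∀ v : P.ι, P.Gv v × P.Gv v → k), (∀ v, z v ∈ Z2 (P.levv v) (P.loc ρμ v)) →
    t (0, z) = ∑ v, τ v (z v)

end Fermat.Agent.S55
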